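import Fermat.Agent.S38.IA.Gal.H1.PivFacts
import Fermat.Agent.S38.IA.Gal.H1.SixVar
import Fermat.Agent.S38.IA.Gal.H1.LocGen
import Fermat.Agent.S38.IA.H183.Unframed
import Fermat.Agent.S38.H953.Pivot

/-!
# Row HARD (row 37), cell GAL: `IAGalStatement` from the relative Taylor–Wiles wall
(integrator helper1)

* `RelTWCobStatement` : helper183's unframed relative Taylor–Wiles theorem (`RelTWPrimesCob` for
  the flat and the strict-ordinary families), as a `Prop`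
  (proved unconditionally in `S38/IA/H183/Closed.lean`);
* `iaGal_core` : the Galois block for one family of deformation conditions;
* `iaGal_of : RelTWCobStatement → IAGalStatement`.

Ingredients: helper183 (`RelTWPrimesCob`: Taylor–Wiles primes and the bound `r − 3k` modulo
coboundaries), helper953 (`exists_surjective_pivots`: presentation over the matrix entries),
LOC-GEN (tame pairs, `locGenCocycle`, `mat_rel`), `exists_surjective_traceless` (8 → 6 variables),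
`isPivotPres_of`.
-/

set_option autoImplicit false
set_option linter.unusedSectionVars false
set_option linter.unusedVariables false
set_option linter.style.haveILetI false

open Polynomial IsLocalRing

namespace Fermat.Agent.S38.IA.Gal

noncomputable section

open Fermat.Agent.S56 Fermat.Agent.S56.H716 Fermat.Agent.S56.H596 Fermat.Agent.S38.H953
open Fermat.Agent.S59.Arch (ResidualHyp sigmaCond PType pCond)
open Fermat.Agent.S59.TW.H959 (IsTWSet)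

attribute [local instance] Fermat.Agent.S56.tanAlgebra

/-- **helper183's relative Taylor–Wiles theorem** (unframed, multi-pivot), as a `Prop`. -/
def RelTWCobStatement : Prop :=
  ∀ (𝒪 : Type) [CommRing 𝒪] [IsDomain 𝒪] [IsDiscreteValuationRing 𝒪]
    [IsAdicComplete (maximalIdeal 𝒪) 𝒪] [Finite (ResidueField 𝒪)]
    (p : ℕ) (ρbar : ResidualGaloisRep (ResidueField 𝒪)) (S Smin : Finset ℕ),
    Hyp 𝒪 p ρbar S Smin → ∀ T : Finset ℕ, (∀ q ∈ T, q.Prime) → Disjoint Smin T →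
      (∀ v ∈ T, ∀ P : ValuationSubring Qb, P.LiesOverPrime v →
        ∀ σ ∈ P.decompositionSubgroup ℚ,
          ∃ a : ResidueField 𝒪, ρbar.ρ σ = a • (1 : Module.End (ResidueField 𝒪) ρbar.V)) →
      H183.RelTWPrimesCob 𝒪 p ρbar S T (flatCond 𝒪 p Smin) ∧
        H183.RelTWPrimesCob 𝒪 p ρbar S T (ordCond 𝒪 p Smin)

section Core

variable (p : ℕ) [Fact p.Prime]
  (𝒪 : Type) [CommRing 𝒪] [IsDomain 𝒪] [IsDiscreteValuationRing 𝒪]
  [IsAdicComplete (maximalIdeal 𝒪) 𝒪] [Finite (ResidueField 𝒪)]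
  (ρbar : ResidualGaloisRep (ResidueField 𝒪)) (Smin : Finset ℕ)

theorem hyp_of_residualHyp (h : ResidualHyp p 𝒪 ρbar Smin) : Hyp 𝒪 p ρbar Smin Smin :=
  ⟨Fact.out, h.hp2, h.hp𝒪, h.habs, h.hdet, h.hsplit, h.hTW, h.hpSmin, subset_rfl, h.hSmin,
    h.hmin⟩

variable {p 𝒪 ρbar Smin}

theorem isUnit_of_rho_eq_smul (φ : GQ) (a : 𝒪)
    (h : ρbar.ρ φ = residue 𝒪 a • (1 : Module.End (ResidueField 𝒪) ρbar.V)) : IsUnit a := by
  by_contra hcon
  have h0 : residue 𝒪 a = 0 := (residue_eq_zero_iff a).mpr ((mem_maximalIdeal a).mpr hcon)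
  rw [h0, zero_smul] at h
  have h1 : ρbar.ρ φ * ρbar.ρ φ⁻¹ = 1 := by rw [← map_mul, mul_inv_cancel, map_one]
  rw [h, zero_mul] at h1
  haveI : Nontrivial ρbar.V := by
    apply Module.nontrivial_of_finrank_pos (R := ResidueField 𝒪)
    rw [ρbar.finrank_eq]
    norm_num
  obtain ⟨v, hv⟩ := exists_ne (0 : ρbar.V)
  have := congrArg (fun f : Module.End (ResidueField 𝒪) ρbar.V => f v) h1
  simp only [LinearMap.zero_apply, Module.End.one_apply] at this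
  exact hv this.symm

/-- **The Galois block for one family `cond` of deformation conditions.** -/
theorem iaGal_core (h : ResidualHyp p 𝒪 ρbar Smin) (Piv : Finset ℕ)
    (hPiv : IsPivotSet p ρbar Smin Piv)
    (cond base : Finset ℕ → DefCond 𝒪)
    (hbase : ∀ (Q : Finset ℕ) (ρ' : GaloisRepAdic (DualNumber (ResidueField 𝒪))),
      cond (Smin ∪ Piv ∪ Q) ρ' → base (Piv ∪ Q) ρ')
    (hdet : ∀ (Sig : Finset ℕ) ⦃A : Type⦄ [CommRing A] [IsLocalRing A] [Algebra 𝒪 A]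
      (ρ : GaloisRepAdic A), cond Sig ρ → ρ.DetIsCyclotomic p)
    (hbc : ∀ (Sig : Finset ℕ) (DQ : GaloisRep.DeformationRingData 𝒪 ρbar (cond Sig))
      (ψ : TanHom 𝒪 DQ.R) (hψ : IsLocalHom (ψ : DQ.R →+* DualNumber (ResidueField 𝒪))),
      Function.Surjective ψ →
      cond Sig (DQ.ρ.baseChangeAlong (ψ : DQ.R →+* DualNumber (ResidueField 𝒪)) hψ))
    (hrel : H183.RelTWPrimesCob 𝒪 p ρbar Smin Piv base) :
    ∃ (r : ℕ) (Pl : ℕ → ValuationSubring Qb) (φ σ : ℕ → GQ) (a : ℕ → 𝒪),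
      3 * Piv.card ≤ r ∧
      (∀ q ∈ Piv, (Pl q).LiesOverPrime q ∧ IsTamePair p q (Pl q) (φ q) (σ q) ∧
        ρbar.ρ (φ q) = residue 𝒪 (a q) • (1 : Module.End (ResidueField 𝒪) ρbar.V)) ∧
      ∀ n : ℕ, ∃ qv : Fin r → ℕ, IsTWSet p ρbar (Smin ∪ Piv) n qv ∧
        ∀ DQ : GaloisRep.DeformationRingData 𝒪 ρbar
            (cond (Smin ∪ Piv ∪ Finset.univ.image qv)),
          ∃ (F : UFrame DQ) (γ : IARing 𝒪 Piv (r - 3 * Piv.card) →ₐ[𝒪] DQ.R),
            Function.Surjective γ ∧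
            ∀ q : ↥Piv, IsPivotPres (q : ℕ) (a q) DQ F (φ q) (σ q)
              (γ (MvPowerSeries.X (Sum.inl (q, 0)))) (γ (MvPowerSeries.X (Sum.inl (q, 1))))
              (γ (MvPowerSeries.X (Sum.inl (q, 2)))) (γ (MvPowerSeries.X (Sum.inl (q, 3))))
              (γ (MvPowerSeries.X (Sum.inl (q, 4)))) (γ (MvPowerSeries.X (Sum.inl (q, 5)))) := by
  classical
  have hp : p.Prime := Fact.out
  have hyp : Hyp 𝒪 p ρbar Smin Smin := hyp_of_residualHyp p 𝒪 ρbar Smin h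
  have hPivP : ∀ q ∈ Piv, q.Prime := fun q hq => (hPiv q hq).1
  have hqp : ∀ q ∈ Piv, q ≠ p := fun q hq hqp => (hPiv q hq).2.1 (hqp ▸ h.hpSmin)
  have hunr : ∀ q ∈ Piv, ρbar.IsUnramifiedAt q := by
    intro q hq
    by_contra hcon
    exact (hPiv q hq).2.1 ((h.hmin q (hPivP q hq) (hqp q hq)).mpr hcon)
  obtain ⟨r, Pl, hPl, hn⟩ := hrel
  -- tame pairs and lifts of the scalars
  have hex : ∀ q : ℕ, ∃ x : GQ × GQ × 𝒪, q ∈ Piv →
      IsTamePair p q (Pl q) x.1 x.2.1 ∧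
        ρbar.ρ x.1 = residue 𝒪 x.2.2 • (1 : Module.End (ResidueField 𝒪) ρbar.V) := by
    intro q
    by_cases hq : q ∈ Piv
    · obtain ⟨φ, σ, hts⟩ :=
        locGenExists p q hp (hPivP q hq) (Ne.symm (hqp q hq)) (Pl q) (hPl q hq)
      obtain ⟨c, hc⟩ := (hPiv q hq).2.2.2 (Pl q) (hPl q hq) φ hts.frob
      obtain ⟨a, rfl⟩ := residue_surjective c
      exact ⟨(φ, σ, a), fun _ => ⟨hts, hc⟩⟩
    · exact ⟨(1, 1, 0), fun hq' => absurd hq' hq⟩
  choose x hx using hex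
  refine ⟨r, Pl, fun q => (x q).1, fun q => (x q).2.1, fun q => (x q).2.2, ?_,
    fun q hq => ⟨hPl q hq, (hx q hq).1, (hx q hq).2⟩, fun n => ?_⟩
  · obtain ⟨qv, -, -, -, hD⟩ := hn 0
    obtain ⟨𝒯, -, hle, -⟩ := hD (base (Piv ∪ Finset.univ.image qv)) (fun ρ' h => h)
    omega
  obtain ⟨qv, hinj, hq, hfrob, hD⟩ := hn n
  refine ⟨qv, ⟨hinj, fun i => ⟨(hq i).1, ?_, (hq i).2.2.2⟩, hfrob⟩, fun DQ => ?_⟩
  · rw [Finset.mem_union]
    rintro (h1 | h1)
    · exact (hq i).2.1 h1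
    · exact (hq i).2.2.1 h1
  obtain ⟨F⟩ := exists_uFrame DQ
  obtain ⟨𝒯, hfin, hle, hrep⟩ := hD (cond (Smin ∪ Piv ∪ Finset.univ.image qv)) (hbase _)
  let φ' : ↥Piv → GQ := fun j => (x j).1
  let σ' : ↥Piv → GQ := fun j => (x j).2.1
  let a' : ↥Piv → 𝒪 := fun j => (x j).2.2
  have htp : ∀ j : ↥Piv, IsTamePair p j (Pl j) (φ' j) (σ' j) := fun j => (hx j j.2).1
  have hφ' : ∀ j : ↥Piv, ρbar.ρ (φ' j) =
      residue 𝒪 (a' j) • (1 : Module.End (ResidueField 𝒪) ρbar.V) := fun j => (hx j j.2).2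
  have hunrP : ∀ j : ↥Piv, ∀ ι ∈ (Pl j).inertiaSubgroupIn ℚ, ρbar.ρ ι = 1 :=
    fun j => hunr j j.2 (Pl j) (hPl j j.2)
  have hσ' : ∀ j : ↥Piv, ρbar.ρ (σ' j) = 1 := fun j => hunrP j _ (htp j).mem
  -- the relative Selmer bound modulo coboundaries at the tame generators
  have hsel : RelSelCob 𝒪 ρbar (cond (Smin ∪ Piv ∪ Finset.univ.image qv))
      (Set.range φ' ∪ Set.range σ') (r - 3 * Piv.card) := by
    refine ⟨𝒯, hfin, by omega, fun c hc hv => hrep c (Or.inl hc) (fun v hv' => ⟨0, fun τ hτ => ?_⟩)⟩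
    rw [mul_zero, zero_mul, sub_zero]
    exact locGenCocycle p v hp (hPivP v hv') (Ne.symm (hqp v hv')) (Pl v) (hPl v hv') _ _
      (hx v hv').1 _ ρbar (natCast_p_eq_zero hyp) (hunr v hv' (Pl v) (hPl v hv')) c hc.1
      (hv _ (Or.inl ⟨⟨v, hv'⟩, rfl⟩)) (hv _ (Or.inr ⟨⟨v, hv'⟩, rfl⟩)) τ hτ
  obtain ⟨γ8, hγ8, hγ8X⟩ := exists_surjective_pivots p hp
    (fun ρ' hρ' => hdet _ ρ' hρ') (hbc _ DQ) F φ' σ' a' hφ' hσ' (r - 3 * Piv.card) hsel
  -- `2` is invertible in `𝒪`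
  obtain ⟨half, hhalf⟩ : ∃ c : 𝒪, 2 * c = 1 := by
    have h2 : IsUnit (2 : 𝒪) := by
      by_contra hcon
      have h0 : residue 𝒪 (2 : 𝒪) = 0 :=
        (residue_eq_zero_iff _).mpr ((mem_maximalIdeal _).mpr hcon)
      rw [map_ofNat] at h0
      exact two_ne_zero_of_hyp hyp h0
    exact ⟨↑h2.unit⁻¹, by
      have := h2.unit.mul_inv
      rwa [IsUnit.unit_spec] at this⟩
  -- determinants
  have hdetρ : DQ.ρ.DetIsCyclotomic p := hdet _ DQ.ρ DQ.isOfType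
  have hdetR : (Fermat.Agent.S53.toAdic F.rR F.hrR).DetIsCyclotomic p :=
    Fermat.Agent.S56.H966.detIsCyclotomic_of_isEquiv ⟨F.eR⟩ hdetρ
  have hdetS : ∀ j : ↥Piv, (F.rR (σ' j)).det = 1 := fun j =>
    Fermat.Agent.S59.H126.det_inertia_eq_one (p := p) F.rR F.hrR hdetR (hPivP j j.2) (hqp j j.2)
      (Pl j) (hPl j j.2) (htp j).mem
  have hdetΦ : ∀ j : ↥Piv, (F.rR (φ' j)).det = ((j : ℕ) : DQ.R) := fun j =>
    Fermat.Agent.S59.H126.det_frobenius_eq (p := p) F.rR F.hrR hdetR (hPivP j j.2) (hqp j j.2)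
      (Pl j) (hPl j j.2) (htp j).frob
  have hSg : ∀ (j : ↥Piv) (i k : Fin 2), (F.rR (σ' j) - 1) i k ∈ maximalIdeal DQ.R :=
    fun j i k => sig_res_uFrame F (σ' j) (hσ' j) i k
  have hPh : ∀ (j : ↥Piv) (i k : Fin 2),
      (F.rR (φ' j) - algebraMap 𝒪 DQ.R (a' j) • (1 : Matrix (Fin 2) (Fin 2) DQ.R)) i k ∈
        maximalIdeal DQ.R := fun j i k => phi_res_uFrame F (φ' j) (a' j) (hφ' j) i k
  have hdetP : ∀ j : ↥Piv, (F.rR (φ' j)).det - algebraMap 𝒪 DQ.R (a' j) ^ 2 ∈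
      Ideal.map (algebraMap 𝒪 DQ.R) (maximalIdeal 𝒪) := by
    intro j
    have h1 : (F.rR (φ' j)).det -
        (algebraMap 𝒪 DQ.R (a' j) • (1 : Matrix (Fin 2) (Fin 2) DQ.R)).det ∈
          maximalIdeal DQ.R := m2_det_sub_mem _ _ _ (hPh j)
    have h2 : (algebraMap 𝒪 DQ.R (a' j) • (1 : Matrix (Fin 2) (Fin 2) DQ.R)).det =
        algebraMap 𝒪 DQ.R (a' j) ^ 2 := by
      rw [Matrix.det_smul, Matrix.det_one, mul_one, Fintype.card_fin]
    rw [h2, hdetΦ j] at h1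
    have h3 : ((j : ℕ) : DQ.R) - algebraMap 𝒪 DQ.R (a' j) ^ 2 =
        algebraMap 𝒪 DQ.R (((j : ℕ) : 𝒪) - a' j ^ 2) := by
      rw [map_sub, map_pow, map_natCast]
    rw [hdetΦ j, h3]
    rw [h3] at h1
    refine Ideal.mem_map_of_mem _ ?_
    rw [mem_maximalIdeal, mem_nonunits_iff]
    intro hu
    exact (mem_maximalIdeal _).mp h1 (hu.map _)
  have ha : ∀ j : ↥Piv, IsUnit (a' j) := fun j => isUnit_of_rho_eq_smul (φ' j) (a' j) (hφ' j)
  -- the images of the free variables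
  haveI hloc8 : IsLocalHom (γ8 : MvPowerSeries ((↥Piv × Bool × Fin 2 × Fin 2) ⊕
      Fin (r - 3 * Piv.card)) 𝒪 →+* DQ.R) := IsLocalHom.of_surjective _ hγ8
  have hy : ∀ i, γ8 (MvPowerSeries.X (Sum.inr i)) ∈ maximalIdeal DQ.R := by
    intro i
    have hX := Fermat.Agent.S53.H596.X_mem_maximalIdeal_mvPowerSeries (R := 𝒪)
      (Sum.inr i : (↥Piv × Bool × Fin 2 × Fin 2) ⊕ Fin (r - 3 * Piv.card))
    exact Fermat.Agent.S56.H966.map_mem_maximalIdeal
      (γ8 : MvPowerSeries ((↥Piv × Bool × Fin 2 × Fin 2) ⊕ Fin (r - 3 * Piv.card)) 𝒪 →+* DQ.R)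
      hloc8 hX
  have hgen : maximalIdeal DQ.R ≤ Ideal.map (algebraMap 𝒪 DQ.R) (maximalIdeal 𝒪) ⊔
      Ideal.span (Set.range (Sum.elim
        (entCoord (fun j => F.rR (σ' j)) (fun j => F.rR (φ' j)) a')
        (fun i => γ8 (MvPowerSeries.X (Sum.inr i))))) := by
    have hfun : (fun i => γ8 (MvPowerSeries.X i)) = Sum.elim
        (entCoord (fun j => F.rR (σ' j)) (fun j => F.rR (φ' j)) a')
        (fun i => γ8 (MvPowerSeries.X (Sum.inr i))) := by
      funext i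
      rcases i with z | i
      · rw [hγ8X z]
        obtain ⟨j, b, i, k⟩ := z
        cases b
        · simp only [Sum.elim_inl, pivX, entCoord, Bool.false_eq_true, if_false,
            Matrix.sub_apply, Matrix.smul_apply, smul_eq_mul]
        · simp only [Sum.elim_inl, pivX, entCoord, if_true, Matrix.sub_apply]
      · rfl
    rw [← hfun, ← Fermat.Agent.S53.H596.map_maximalIdeal_mvPowerSeries γ8]
    intro y hy'
    obtain ⟨f, rfl⟩ := hγ8 y
    refine Ideal.mem_map_of_mem _ ?_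
    rw [mem_maximalIdeal, mem_nonunits_iff]
    intro hu
    exact (mem_maximalIdeal _).mp hy' (hu.map γ8)
  obtain ⟨γ, hγ, hS, hP, -⟩ := exists_surjective_traceless DQ.residue_surjective half hhalf
    (fun j => F.rR (σ' j)) (fun j => F.rR (φ' j)) a'
    (fun i => γ8 (MvPowerSeries.X (Sum.inr i))) hSg hPh hy hdetS hdetP ha hgen
  exact ⟨F, γ, hγ, fun q => isPivotPres_of p F hdetρ (hPivP q q.2) (hqp q q.2) (Pl q)
    (hPl q q.2) _ _ (htp q) (hunrP q) _ (hφ' q) _ _ _ _ _ _ (hS q) (hP q)⟩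

end Core

/-- **`IAGalStatement` from helper183's relative Taylor–Wiles theorem.** -/
theorem iaGal_of (h183 : RelTWCobStatement) : IAGalStatement := by
  intro p _ 𝒪 _ _ _ _ _ ρbar Smin h t ht Piv hPiv
  have hp : p.Prime := Fact.out
  have hyp : Hyp 𝒪 p ρbar Smin Smin := hyp_of_residualHyp p 𝒪 ρbar Smin h
  have hPivP : ∀ q ∈ Piv, q.Prime := fun q hq => (hPiv q hq).1
  have hqp : ∀ q ∈ Piv, q ≠ p := fun q hq hqp => (hPiv q hq).2.1 (hqp ▸ h.hpSmin)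
  have hdisj : Disjoint Smin Piv :=
    Finset.disjoint_left.mpr fun q hqS hqP => (hPiv q hqP).2.1 hqS
  have hunr : ∀ q ∈ Piv, ρbar.IsUnramifiedAt q := by
    intro q hq
    by_contra hcon
    exact (hPiv q hq).2.1 ((h.hmin q (hPivP q hq) (hqp q hq)).mpr hcon)
  have hsc : ∀ v ∈ Piv, ∀ P : ValuationSubring Qb, P.LiesOverPrime v →
      ∀ σ ∈ P.decompositionSubgroup ℚ,
        ∃ a : ResidueField 𝒪, ρbar.ρ σ = a • (1 : Module.End (ResidueField 𝒪) ρbar.V) :=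
    fun v hv P hP => scalar_on_decomp ρbar hp (hPivP v hv) (Ne.symm (hqp v hv)) P hP
      (hunr v hv P hP) ((hPiv v hv).2.2.2 P hP)
  obtain ⟨hflat, hord⟩ := h183 𝒪 p ρbar Smin Smin hyp Piv hPivP hdisj hsc
  rcases ht with rfl | rfl
  · refine iaGal_core h Piv hPiv (sigmaCond 𝒪 p .flat Smin) (flatCond 𝒪 p Smin) ?_ ?_ ?_ hflat
    · intro Q ρ' hρ'
      show GaloisRep.flatCondition 𝒪 p (Smin ∪ (Piv ∪ Q)) ρ' ∧ _
      rw [← Finset.union_assoc]
      exact hρ'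
    · intro Sig A _ _ _ ρ hρ
      exact (hρ.1 : GaloisRep.flatCondition 𝒪 p Sig ρ).1
    · intro Sig DQ ψ hψ hs
      exact ⟨Fermat.Agent.S56.H966.flatCondition_baseChangeAlong_of_surjective 𝒪 _ hψ hs
          DQ.isOfType.1,
        fun q hq hqp' hne => Fermat.Agent.S56.H966.isUnipotentOnInertiaAt_baseChangeAlong _ hψ
          (DQ.isOfType.2 q hq hqp' hne)⟩
  · refine iaGal_core h Piv hPiv (sigmaCond 𝒪 p .sord Smin) (ordCond 𝒪 p Smin) ?_ ?_ ?_ hord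
    · intro Q ρ' hρ'
      show GaloisRep.strictOrdinaryCondition 𝒪 p (Smin ∪ (Piv ∪ Q)) ρ' ∧ _
      rw [← Finset.union_assoc]
      exact hρ'
    · intro Sig A _ _ _ ρ hρ
      exact (hρ.1 : GaloisRep.strictOrdinaryCondition 𝒪 p Sig ρ).1
    · intro Sig DQ ψ hψ hs
      exact ⟨Fermat.Agent.S56.H966.strictOrdinaryCondition_baseChangeAlong 𝒪 _ hψ DQ.isOfType.1,
        fun q hq hqp' hne => Fermat.Agent.S56.H966.isUnipotentOnInertiaAt_baseChangeAlong _ hψ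
          (DQ.isOfType.2 q hq hqp' hne)⟩

end

end Fermat.Agent.S38.IA.Gal
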