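import Mathlib
import Fermat.Prelude.Def_FLTPrelim_Ramification
import Fermat.Prelude.Def_EllipticCurve_FrobeniusTrace
import Fermat.Agent.S56.H794.TameFaithful
import Fermat.Agent.S56.H716.TBDefs

/-!
# Row 37 (pivot), Ihara avoidance, block IA-GAL, part LOC-GEN (helper1): FROZEN shapes

`p ≠ q` primes, `P` a valuation subring of `ℚ̄` over `q`, `D_P`, `I_P` its decomposition and
inertia groups (Prelude `decompositionSubgroup`, `inertiaSubgroupIn`).

A *tame pair* `(φ, σ)` at `P` is a Frobenius element `φ` at `P` together with an element `σ` of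
`I_P` which moves the `p`-th roots of `q` (`IsTamePair`).  The structure is intrinsic: it does not
mention any representation.  The consequences used by the deformation theory are stated as
`Prop`s below and proved in `Fermat/Agent/S38/IA/Gal/H1/LocGen.lean`:

* `LocGenExists`  : tame pairs exist at every `P | q`;
* `LocGenRel`     : `f (φ σ φ⁻¹) = f σ ^ q`;
* `LocGenInertia` : `f(I_P)` is generated by `f σ`;
* `LocGenDecomp`  : every element of `f(D_P)` is `f φ ^ n * f σ ^ j`;
* `LocGenAgree`   : two homomorphisms agreeing at `φ` and `σ` agree on `D_P`;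
* `LocGenCocycle` : an ad-cocycle of a residual representation unramified at `P`
  vanishing at `φ` and `σ` vanishes on `D_P`;

all for homomorphisms `f` of finite level (`S56.H794.FiniteLevel`) whose restriction to `I_P` has
`p`-power exponent (`PPowOnInertia`).  Nothing unproved in this file.
-/

set_option autoImplicit false

namespace Fermat.Agent.S38.IA.Gal

open Fermat.Agent.S56

/-- `(φ, σ)` is a tame pair at `P | q` for the prime `p`: `φ` is a Frobenius element at `P`,
`σ` lies in the inertia group of `P` and moves every `p`-th root of `q`. -/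
structure IsTamePair (p q : ℕ) (P : ValuationSubring Qb) (φ σ : GQ) : Prop where
  frob : P.IsFrobeniusAt φ q
  mem : σ ∈ P.inertiaSubgroupIn ℚ
  moves : ∀ c : Qb, c ^ p = (q : Qb) → σ c ≠ c

/-- Every element of `f(I_P)` has `p`-power order. -/
def PPowOnInertia (p : ℕ) (P : ValuationSubring Qb) {G : Type*} [Group G] (f : GQ →* G) : Prop :=
  ∀ τ ∈ P.inertiaSubgroupIn ℚ, ∃ m : ℕ, f τ ^ p ^ m = 1

/-- Tame pairs exist. -/
def LocGenExists : Prop :=
  ∀ (p q : ℕ), p.Prime → q.Prime → p ≠ q → ∀ P : ValuationSubring Qb, P.LiesOverPrime q →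
    ∃ φ σ : GQ, IsTamePair p q P φ σ

/-- The tame relation `f (φ σ φ⁻¹) = f σ ^ q`. -/
def LocGenRel.{u} : Prop :=
  ∀ (p q : ℕ), p.Prime → q.Prime → p ≠ q → ∀ P : ValuationSubring Qb, P.LiesOverPrime q →
    ∀ φ σ : GQ, IsTamePair p q P φ σ →
    ∀ (G : Type u) [Group G] (f : GQ →* G), H794.FiniteLevel f → PPowOnInertia p P f →
      f (φ * σ * φ⁻¹) = f σ ^ q

/-- `f σ` generates `f(I_P)`. -/
def LocGenInertia.{u} : Prop :=
  ∀ (p q : ℕ), p.Prime → q.Prime → p ≠ q → ∀ P : ValuationSubring Qb, P.LiesOverPrime q →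
    ∀ φ σ : GQ, IsTamePair p q P φ σ →
    ∀ (G : Type u) [Group G] (f : GQ →* G), H794.FiniteLevel f → PPowOnInertia p P f →
      ∀ τ ∈ P.inertiaSubgroupIn ℚ, ∃ j : ℕ, f τ = f σ ^ j

/-- `f φ` and `f σ` generate `f(D_P)`, in the precise form `f τ = f φ ^ n * f σ ^ j`. -/
def LocGenDecomp.{u} : Prop :=
  ∀ (p q : ℕ), p.Prime → q.Prime → p ≠ q → ∀ P : ValuationSubring Qb, P.LiesOverPrime q →
    ∀ φ σ : GQ, IsTamePair p q P φ σ →
    ∀ (G : Type u) [Group G] (f : GQ →* G), H794.FiniteLevel f → PPowOnInertia p P f →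
      ∀ τ ∈ P.decompositionSubgroup ℚ, ∃ n j : ℕ, f τ = f φ ^ n * f σ ^ j

/-- Two homomorphisms agreeing at `φ` and `σ` agree on `D_P`. -/
def LocGenAgree.{u} : Prop :=
  ∀ (p q : ℕ), p.Prime → q.Prime → p ≠ q → ∀ P : ValuationSubring Qb, P.LiesOverPrime q →
    ∀ φ σ : GQ, IsTamePair p q P φ σ →
    ∀ (G : Type u) [Group G] (f g : GQ →* G), H794.FiniteLevel f → PPowOnInertia p P f →
      H794.FiniteLevel g → PPowOnInertia p P g → f φ = g φ → f σ = g σ →
      ∀ τ ∈ P.decompositionSubgroup ℚ, f τ = g τ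

/-- **Cocycle form.**  `ρ̄` unramified at `P`, `p = 0` in `k`: an ad-cocycle vanishing at `φ` and
`σ` vanishes on `D_P`. -/
def LocGenCocycle : Prop :=
  ∀ (p q : ℕ), p.Prime → q.Prime → p ≠ q → ∀ P : ValuationSubring Qb, P.LiesOverPrime q →
    ∀ φ σ : GQ, IsTamePair p q P φ σ →
    ∀ (k : Type) [Field k] (ρbar : ResidualGaloisRep k), (p : k) = 0 →
      (∀ τ ∈ P.inertiaSubgroupIn ℚ, ρbar.ρ τ = 1) →
      ∀ c : GQ → Module.End k ρbar.V, H716.IsAdCocycle ρbar c → c φ = 0 → c σ = 0 →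
        ∀ τ ∈ P.decompositionSubgroup ℚ, c τ = 0

end Fermat.Agent.S38.IA.Gal
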