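import Fermat.Agent.S38.IA.Spec
import Fermat.Agent.S38.H953.Frame
import Fermat.Agent.S38.IA.Gal.LocGenSpec

/-!
# Row HARD (row 37), cell GAL: the frozen output `IAGalStatement`  (integrator helper1)

Board `coord/HARD.md` v3, §3.1.  Vocabulary of row S59 (`ResidualHyp`, `sigmaCond`, `IsTWSet`) and
of the trunk (`IsPivotSet`).  Only sorry-free definitions in this file.

`Piv` = the pivots (`IsPivotSet`: primes `q ∉ Smin`, `q ≡ 1 mod p`, Frobenius scalar on `ρ̄`),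
`k = #Piv`.  The Galois side provides

* a number `r ≥ 3k`, places `Pl q | q`, tame pairs `(φ_q, σ_q)` at `Pl q` and lifts `a_q ∈ 𝒪` of
  the scalars `ρ̄(φ_q)` (`q ∈ Piv`) — all independent of `n`;
* for every `n` a Taylor–Wiles set `qv : Fin r → ℕ` of level `n` relative to `Smin ∪ Piv`;
* for every universal deformation ring `DQ.R` of type `sigmaCond 𝒪 p t Smin (Smin ∪ Piv ∪ Q_n)`
  (NO condition at `Piv ∪ Q_n`) a matrix form `F.rR` of the universal deformation and a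
  SURJECTION of `𝒪`-algebras

      `γ : 𝒪⟦v_{q,0..2}, w_{q,0..2} (q ∈ Piv), x₁, …, x_g⟧ ↠ DQ.R`,      `g = r − 3k`,

  sending `v_{q,•}`, `w_{q,•}` to the TRACELESS coordinates of `Σ_q = F.rR (σ_q)`,
  `Φ_q = F.rR (φ_q)`  (`M = (tr M / 2)·1 + [[x₀, x₁], [x₂, −x₀]]`), together with the relations
  `det Σ_q = 1`, `det Φ_q = q`, `Φ_q Σ_q = Σ_q^q Φ_q`, `Σ_q ≡ 1`, `Φ_q ≡ a_q` modulo `𝔪`, and
* (UNIP) for every local homomorphism `y : DQ.R → A` (`A` Noetherian local): if `tr y(Σ_q) = 2`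
  then the push-forward of the universal deformation along `y` is unipotent on inertia at `q`
  (so: NOT unipotent at `q` ⟹ `tr y(Σ_q) ≠ 2`, the hypothesis of TYPE, board §3.4).

No frames are needed because `ρ̄` is scalar on the decomposition groups at the pivots.
-/

set_option autoImplicit false

open IsLocalRing

namespace Fermat.Agent.S38.IA.Gal

open Fermat.Agent.S56 Fermat.Agent.S38.H953
open Fermat.Agent.S59.Arch (ResidualHyp sigmaCond PType)
open Fermat.Agent.S59.TW.H959 (IsTWSet)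

/-- The index set of the variables of the ambient ring: `(q, 0..2) ↦ v_{q,•}` (traceless
coordinates of `Σ_q`), `(q, 3..5) ↦ w_{q,•}` (traceless coordinates of `Φ_q`), `q ∈ Piv`, and `g`
free variables. -/
abbrev IAVar (Piv : Finset ℕ) (g : ℕ) : Type := (↥Piv × Fin 6) ⊕ Fin g

/-- The ambient ring `P = 𝒪⟦v, w, x⟧` of board §3. -/
abbrev IARing (𝒪 : Type) [CommRing 𝒪] (Piv : Finset ℕ) (g : ℕ) : Type :=
  MvPowerSeries (IAVar Piv g) 𝒪

/-- `(x₀, x₁, x₂)` are the **traceless coordinates** of the `2 × 2` matrix `M`: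
`M - (tr M / 2) • 1 = [[x₀, x₁], [x₂, -x₀]]`. -/
def IsTraceless {R : Type} [CommRing R] (M : Matrix (Fin 2) (Fin 2) R) (x₀ x₁ x₂ : R) : Prop :=
  2 * x₀ = M 0 0 - M 1 1 ∧ x₁ = M 0 1 ∧ x₂ = M 1 0

section

variable {𝒪 : Type} [CommRing 𝒪] [IsDomain 𝒪] [IsDiscreteValuationRing 𝒪]
  [IsAdicComplete (maximalIdeal 𝒪) 𝒪]
  {ρbar : ResidualGaloisRep (ResidueField 𝒪)} {𝒟 : DefCond 𝒪}

/-- **What the Galois side provides at one pivot `q`** (`Sg = F.rR σ`, `Ph = F.rR φ` the universal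
matrices at a tame pair `(φ, σ)` over `q`; `v`, `w` the images of the variables). -/
structure IsPivotPres (q : ℕ) (a : 𝒪) (DQ : GaloisRep.DeformationRingData 𝒪 ρbar 𝒟)
    (F : UFrame DQ) (φ σ : GQ) (v₀ v₁ v₂ w₀ w₁ w₂ : DQ.R) : Prop where
  /-- `v` = traceless coordinates of `Σ` -/
  sig_traceless : IsTraceless (F.rR σ) v₀ v₁ v₂
  /-- `w` = traceless coordinates of `Φ` -/
  phi_traceless : IsTraceless (F.rR φ) w₀ w₁ w₂
  /-- `det Σ = 1` -/
  det_sig : (F.rR σ).det = 1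
  /-- `det Φ = q` -/
  det_phi : (F.rR φ).det = (q : DQ.R)
  /-- the tame relation `Φ Σ = Σ^q Φ` -/
  rel : F.rR φ * F.rR σ = F.rR σ ^ q * F.rR φ
  /-- `Σ ≡ 1` -/
  sig_res : ∀ i j, (F.rR σ - 1) i j ∈ maximalIdeal DQ.R
  /-- `Φ ≡ a` -/
  phi_res : ∀ i j, (F.rR φ - algebraMap 𝒪 DQ.R a • (1 : Matrix (Fin 2) (Fin 2) DQ.R)) i j ∈
    maximalIdeal DQ.R
  /-- (UNIP) `tr y(Σ) = 2 ⟹` the push-forward along `y` is unipotent on inertia at `q` -/
  unip : ∀ (A : Type) [CommRing A] [IsLocalRing A] [IsNoetherianRing A]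
    (y : DQ.R →+* A) (hy : IsLocalHom y),
    ((F.rR σ).map y).trace = 2 → (DQ.ρ.baseChangeAlong y hy).IsUnipotentOnInertiaAt q

end

/-- **LEAF GAL of row HARD** (board v3, §3.1): the relative, unframed presentation of the
universal deformation rings at Taylor–Wiles level over the pivot coordinates. -/
def IAGalStatement : Prop :=
  ∀ (p : ℕ) [Fact p.Prime]
    (𝒪 : Type) [CommRing 𝒪] [IsDomain 𝒪] [IsDiscreteValuationRing 𝒪]
    [IsAdicComplete (maximalIdeal 𝒪) 𝒪] [Finite (ResidueField 𝒪)]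
    (ρbar : ResidualGaloisRep (ResidueField 𝒪)) (Smin : Finset ℕ)
    (_h : ResidualHyp p 𝒪 ρbar Smin) (t : PType) (_ht : t = .flat ∨ t = .sord)
    (Piv : Finset ℕ) (_hPiv : IsPivotSet p ρbar Smin Piv),
    ∃ (r : ℕ) (Pl : ℕ → ValuationSubring Qb) (φ σ : ℕ → GQ) (a : ℕ → 𝒪),
      3 * Piv.card ≤ r ∧
      (∀ q ∈ Piv, (Pl q).LiesOverPrime q ∧ IsTamePair p q (Pl q) (φ q) (σ q) ∧
        ρbar.ρ (φ q) = residue 𝒪 (a q) • (1 : Module.End (ResidueField 𝒪) ρbar.V)) ∧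
      ∀ n : ℕ, ∃ qv : Fin r → ℕ, IsTWSet p ρbar (Smin ∪ Piv) n qv ∧
        ∀ DQ : GaloisRep.DeformationRingData 𝒪 ρbar
            (sigmaCond 𝒪 p t Smin (Smin ∪ Piv ∪ Finset.univ.image qv)),
          ∃ (F : UFrame DQ) (γ : IARing 𝒪 Piv (r - 3 * Piv.card) →ₐ[𝒪] DQ.R),
            Function.Surjective γ ∧
            ∀ q : ↥Piv, IsPivotPres (q : ℕ) (a q) DQ F (φ q) (σ q)
              (γ (MvPowerSeries.X (Sum.inl (q, 0)))) (γ (MvPowerSeries.X (Sum.inl (q, 1))))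
              (γ (MvPowerSeries.X (Sum.inl (q, 2)))) (γ (MvPowerSeries.X (Sum.inl (q, 3))))
              (γ (MvPowerSeries.X (Sum.inl (q, 4)))) (γ (MvPowerSeries.X (Sum.inl (q, 5))))

end Fermat.Agent.S38.IA.Gal
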